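import Mathlib

/-!
# Regrouping a weighted Lambert-type double series by `N = e * k`

For a bounded weight `c e k` and `‖r‖ < 1`,
`∑_{e, k ≥ 1} c e k * k * r^(e k) = ∑_N (∑_{e ∣ N} c e (N/e) * (N/e)) r^N`.
This is the weighted version of Mathlib's `tsum_prod_pow_eq_tsum_sigma` (in `HasSum` form, over
`ℕ`).
-/

namespace Fermat.Agent.S48.G1.WP

open Complex

noncomputable section

/-- The double family `(e, k) ↦ c e k * (k * r^(e k))` on `ℕ+ × ℕ+`. -/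
def lamFam (c : ℕ → ℕ → ℂ) (r : ℂ) (p : ℕ+ × ℕ+) : ℂ :=
  c p.1 p.2 * ((p.2 : ℂ) * r ^ ((p.1 : ℕ) * (p.2 : ℕ)))

theorem summable_lamFam (c : ℕ → ℕ → ℂ) (C : ℝ) (hc : ∀ e k, ‖c e k‖ ≤ C) {r : ℂ}
    (hr : ‖r‖ < 1) : Summable (lamFam c r) := by
  have h := (summable_prod_mul_pow (𝕜 := ℂ) 1 hr).norm
  refine Summable.of_norm_bounded (h.mul_left C) (fun p => ?_)
  rw [lamFam, norm_mul]
  have h1 := hc p.1 p.2
  have h2 : ‖((p.2 : ℕ) : ℂ) * r ^ ((p.1 : ℕ) * (p.2 : ℕ))‖ =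
      ‖((p.2 : ℕ) : ℂ) ^ 1 * r ^ ((p.1 : ℕ) * (p.2 : ℕ))‖ := by rw [pow_one]
  rw [h2]
  exact mul_le_mul_of_nonneg_right h1 (norm_nonneg _)

/-- Column form: regrouping by `N = e k`. -/
theorem hasSum_lamFam_sigma (c : ℕ → ℕ → ℂ) (C : ℝ) (hc : ∀ e k, ‖c e k‖ ≤ C) {r : ℂ}
    (hr : ‖r‖ < 1) :
    HasSum (fun N : ℕ+ => (∑ e ∈ (N : ℕ).divisors, c e ((N : ℕ) / e) * (((N : ℕ) / e : ℕ) : ℂ))
      * r ^ (N : ℕ)) (∑' p, lamFam c r p) := by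
  have hF := summable_lamFam c C hc hr
  have hS : HasSum (lamFam c r ∘ ⇑sigmaAntidiagonalEquivProd) (∑' p, lamFam c r p) :=
    (sigmaAntidiagonalEquivProd.hasSum_iff).mpr hF.hasSum
  have h := hS.sigma (fun N => hasSum_fintype _)
  have he : (fun N : ℕ+ => ∑ x : ↥((N : ℕ).divisorsAntidiagonal),
        (lamFam c r ∘ ⇑sigmaAntidiagonalEquivProd) ⟨N, x⟩) =
      fun N : ℕ+ => (∑ e ∈ (N : ℕ).divisors, c e ((N : ℕ) / e) * (((N : ℕ) / e : ℕ) : ℂ))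
        * r ^ (N : ℕ) := by
    funext N
    have h1 : ∀ x : ↥((N : ℕ).divisorsAntidiagonal),
        (lamFam c r ∘ ⇑sigmaAntidiagonalEquivProd) ⟨N, x⟩ =
          (fun y : ℕ × ℕ => c y.1 y.2 * ((y.2 : ℂ) * r ^ (y.1 * y.2))) x.1 := by
      intro x
      simp [lamFam, sigmaAntidiagonalEquivProd, divisorsAntidiagonalFactors]
    rw [Finset.sum_congr rfl (fun x _ => h1 x),
      Finset.sum_coe_sort ((N : ℕ).divisorsAntidiagonal)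
        (fun y : ℕ × ℕ => c y.1 y.2 * ((y.2 : ℂ) * r ^ (y.1 * y.2))),
      Nat.sum_divisorsAntidiagonal (fun a b => c a b * ((b : ℂ) * r ^ (a * b))), Finset.sum_mul]
    refine Finset.sum_congr rfl fun e he => ?_
    rw [Nat.mul_div_cancel' (Nat.dvd_of_mem_divisors he)]
    ring
  rwa [he] at h

/-- The `ℕ`-indexed summand `(e, k) ↦ c (e+1) (k+1) * ((k+1) * r^((e+1)(k+1)))`. -/
def lamTerm (c : ℕ → ℕ → ℂ) (r : ℂ) (e k : ℕ) : ℂ :=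
  c (e + 1) (k + 1) * (((k + 1 : ℕ) : ℂ) * r ^ ((e + 1) * (k + 1)))

theorem summable_lamTerm_row (c : ℕ → ℕ → ℂ) (C : ℝ) (hc : ∀ e k, ‖c e k‖ ≤ C) {r : ℂ}
    (hr : ‖r‖ < 1) (e : ℕ) : Summable (lamTerm c r e) := by
  have h := (summable_lamFam c C hc hr).prod_factor (⟨e + 1, Nat.succ_pos e⟩ : ℕ+)
  have h2 := (summable_pnat_iff_summable_succ
    (f := fun k : ℕ => c (e + 1) k * ((k : ℂ) * r ^ ((e + 1) * k)))).mp h
  exact h2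

theorem tsum_lamFam_row (c : ℕ → ℕ → ℂ) (r : ℂ) (e : ℕ) :
    ∑' k : ℕ+, lamFam c r ((⟨e + 1, Nat.succ_pos e⟩ : ℕ+), k) = ∑' k : ℕ, lamTerm c r e k :=
  tsum_pnat_eq_tsum_succ (f := fun k : ℕ => c (e + 1) k * ((k : ℂ) * r ^ ((e + 1) * k)))

theorem tsum_lamFam_row' (c : ℕ → ℕ → ℂ) (r : ℂ) (e : ℕ) :
    ∑' k : ℕ+, c (e + 1) k * (((k : ℕ) : ℂ) * r ^ ((e + 1) * (k : ℕ))) =
      ∑' k : ℕ, lamTerm c r e k :=
  tsum_pnat_eq_tsum_succ (f := fun k : ℕ => c (e + 1) k * ((k : ℂ) * r ^ ((e + 1) * k)))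

theorem summable_lamTerm_rows (c : ℕ → ℕ → ℂ) (C : ℝ) (hc : ∀ e k, ‖c e k‖ ≤ C) {r : ℂ}
    (hr : ‖r‖ < 1) : Summable (fun e : ℕ => ∑' k : ℕ, lamTerm c r e k) := by
  have h : Summable (fun e : ℕ+ => (fun e : ℕ => ∑' k : ℕ+, c e k *
      (((k : ℕ) : ℂ) * r ^ (e * (k : ℕ)))) e) := (summable_lamFam c C hc hr).prod
  have h2 := (summable_pnat_iff_summable_succ
    (f := fun e : ℕ => ∑' k : ℕ+, c e k * (((k : ℕ) : ℂ) * r ^ (e * (k : ℕ))))).mp h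
  refine h2.congr fun e => ?_
  exact tsum_lamFam_row' c r e

theorem tsum_lamFam (c : ℕ → ℕ → ℂ) (C : ℝ) (hc : ∀ e k, ‖c e k‖ ≤ C) {r : ℂ}
    (hr : ‖r‖ < 1) : ∑' p, lamFam c r p = ∑' e : ℕ, ∑' k : ℕ, lamTerm c r e k := by
  rw [(summable_lamFam c C hc hr).tsum_prod]
  have h := tsum_pnat_eq_tsum_succ
    (f := fun e : ℕ => ∑' k : ℕ+, c e k * (((k : ℕ) : ℂ) * r ^ (e * (k : ℕ))))
  have h1 : ∑' e : ℕ+, ∑' k : ℕ+, lamFam c r (e, k) =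
      ∑' e : ℕ+, (fun e : ℕ => ∑' k : ℕ+, c e k * (((k : ℕ) : ℂ) * r ^ (e * (k : ℕ)))) e := rfl
  rw [h1, h]
  refine tsum_congr fun e => ?_
  exact tsum_lamFam_row' c r e

/-- **Weighted Lambert regrouping.**  For a bounded weight `c` and `‖r‖ < 1`:
`∑_N (∑_{e ∣ N} c e (N/e) (N/e)) r^N = ∑_{e ≥ 1} ∑_{k ≥ 1} c e k · k · r^(e k)`. -/
theorem hasSum_lambert (c : ℕ → ℕ → ℂ) (C : ℝ) (hc : ∀ e k, ‖c e k‖ ≤ C) {r : ℂ}
    (hr : ‖r‖ < 1) :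
    HasSum (fun N : ℕ => (∑ e ∈ N.divisors, c e (N / e) * ((N / e : ℕ) : ℂ)) * r ^ N)
      (∑' e : ℕ, ∑' k : ℕ, lamTerm c r e k) := by
  have h := hasSum_lamFam_sigma c C hc hr
  have h2 := (hasSum_pnat_iff
    (f := fun N : ℕ => (∑ e ∈ N.divisors, c e (N / e) * ((N / e : ℕ) : ℂ)) * r ^ N)).mp h
  simp only [Nat.divisors_zero, Finset.sum_empty, zero_mul, add_zero] at h2
  rwa [tsum_lamFam c C hc hr] at h2

end

end Fermat.Agent.S48.G1.WP
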