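import Fermat.Agent.S48.G1.WP.Strip
import Fermat.Agent.S48.G1.WP.Lambert

/-!
# The `Γ₁(M)`-model family `xdiv M d τ = ℘(d τ; ℤ + M τ ℤ) / (2πi)²`

`xdiv M d τ` is the (normalised) `x`-coordinate of the point `d · P'`, `P' = τ`, of exact order
`M` on the elliptic curve `ℂ / (ℤ + M τ ℤ)`.  It depends only on `±d mod M`, is a weight `2`
function for `Γ₁(M)` on which `Γ₀(M)` acts through `d ↦ a d` (`a` the upper left entry), and for
`0 < d < M` it has the `q`-expansion `1/12 + ∑_{N ≥ 1} c_N q^N` with the integers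
`c_N = ∑_{e ∣ N} (N/e) ([e ≡ d] + [e ≡ -d] - 2 [e ≡ 0])` (congruences mod `M`).
-/

namespace Fermat.Agent.S48.G1.WP

open Complex UpperHalfPlane PeriodPair
open scoped Real MatrixGroups ModularForm

noncomputable section

/-- The point `M τ` of the upper half plane. -/
def mulH (M : ℕ) [NeZero M] (τ : ℍ) : ℍ :=
  ⟨(M : ℂ) * τ, by
    have hM : (0 : ℝ) < M := Nat.cast_pos.mpr (NeZero.pos M)
    have : ((M : ℂ) * τ).im = (M : ℝ) * τ.im := by simp [Complex.mul_im]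
    rw [this]
    exact mul_pos hM τ.im_pos⟩

@[simp] theorem coe_mulH (M : ℕ) [NeZero M] (τ : ℍ) : ((mulH M τ : ℍ) : ℂ) = (M : ℂ) * τ := rfl

/-- `℘` is invariant under translation by the lattice point `m τ + n`. -/
theorem wp_add_lat (τ : ℍ) (z : ℂ) (p : ℤ × ℤ) : ℘[pp τ] (z + lat τ p) = ℘[pp τ] z := by
  have hmem : lat τ p ∈ (pp τ).lattice := (mem_lattice_iff τ _).mpr ⟨p, rfl⟩
  exact (pp τ).weierstrassP_add_coe z ⟨lat τ p, hmem⟩

/-- `xdiv M d τ = ℘(d τ; ℤ + M τ ℤ) / (2πi)²`: the normalised `x`-coordinate of `d · P'`,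
`P' = τ`, on `ℂ / (ℤ + M τ ℤ)`. -/
def xdiv (M : ℕ) [NeZero M] (d : ℤ) (τ : ℍ) : ℂ :=
  ℘[pp (mulH M τ)] (d * τ) / (2 * π * Complex.I) ^ 2

theorem xdiv_add_mul (M : ℕ) [NeZero M] (d t : ℤ) (τ : ℍ) :
    xdiv M (d + M * t) τ = xdiv M d τ := by
  unfold xdiv
  have h := wp_add_lat (mulH M τ) (d * τ) (t, 0)
  have e : ((d + M * t : ℤ) : ℂ) * τ = d * τ + lat (mulH M τ) (t, 0) := by
    simp only [lat, coe_mulH]
    push_cast
    ring
  rw [e, h]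

theorem xdiv_eq_of_dvd (M : ℕ) [NeZero M] {d d' : ℤ} (h : (M : ℤ) ∣ d' - d) (τ : ℍ) :
    xdiv M d' τ = xdiv M d τ := by
  obtain ⟨t, ht⟩ := h
  have : d' = d + M * t := by linarith
  rw [this, xdiv_add_mul]

theorem xdiv_neg (M : ℕ) [NeZero M] (d : ℤ) (τ : ℍ) : xdiv M (-d) τ = xdiv M d τ := by
  unfold xdiv
  have e : ((-d : ℤ) : ℂ) * τ = -(d * τ) := by push_cast; ring
  rw [e, PeriodPair.weierstrassP_neg]

/-- The matrix `[[a, M b], [c / M, e]]` attached to `[[a, b], [c, e]]` with `M ∣ c`. -/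
def conjM (M : ℕ) (γ : SL(2, ℤ)) (h : (M : ℤ) ∣ γ 1 0) : SL(2, ℤ) :=
  ⟨!![γ 0 0, M * γ 0 1; γ 1 0 / M, γ 1 1], by
    have hdet : γ 0 0 * γ 1 1 - γ 0 1 * γ 1 0 = 1 := by
      have := γ.det_coe
      rwa [Matrix.det_fin_two] at this
    obtain ⟨c', hc'⟩ := h
    rw [Matrix.det_fin_two_of]
    by_cases hM : (M : ℤ) = 0
    · rw [hM] at hc' ⊢
      simp only [zero_mul] at hc'
      rw [hc'] at hdet ⊢
      simpa using hdet
    · rw [hc', Int.mul_ediv_cancel_left _ hM]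
      rw [hc'] at hdet
      linarith [hdet]⟩

theorem conjM_apply (M : ℕ) (γ : SL(2, ℤ)) (h : (M : ℤ) ∣ γ 1 0) :
    (conjM M γ h) 0 0 = γ 0 0 ∧ (conjM M γ h) 0 1 = M * γ 0 1 ∧
      (M : ℤ) * (conjM M γ h) 1 0 = γ 1 0 ∧ (conjM M γ h) 1 1 = γ 1 1 := by
  refine ⟨rfl, rfl, ?_, rfl⟩
  show (M : ℤ) * (γ 1 0 / M) = γ 1 0
  exact Int.mul_ediv_cancel' h

theorem den_conjM (M : ℕ) [NeZero M] (γ : SL(2, ℤ)) (h : (M : ℤ) ∣ γ 1 0) (τ : ℍ) :
    den (conjM M γ h) (mulH M τ) = den γ τ := by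
  obtain ⟨-, -, h3, h4⟩ := conjM_apply M γ h
  simp only [den, coe_mulH]
  rw [h4, ← h3]
  push_cast
  ring

theorem mulH_smul (M : ℕ) [NeZero M] (γ : SL(2, ℤ)) (h : (M : ℤ) ∣ γ 1 0) (τ : ℍ) :
    mulH M (γ • τ) = conjM M γ h • mulH M τ := by
  apply UpperHalfPlane.ext
  obtain ⟨h1, h2, -, -⟩ := conjM_apply M γ h
  rw [coe_mulH, coe_smul_eq, coe_smul_eq, den_conjM, h1, h2, coe_mulH]
  push_cast
  ring

/-- **Weight `2` covariance on `Γ₀(M)`**: the diamond moves `d ↦ a d`. -/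
theorem xdiv_smul (M : ℕ) [NeZero M] (γ : SL(2, ℤ)) (h : (M : ℤ) ∣ γ 1 0) (d : ℤ) (τ : ℍ) :
    xdiv M d (γ • τ) = den γ τ ^ 2 * xdiv M (γ 0 0 * d) τ := by
  unfold xdiv
  have hd := den_ne_zero γ τ
  rw [mulH_smul M γ h τ]
  have h1 := wp_smul (conjM M γ h) (mulH M τ) (d * ((γ 0 0 : ℂ) * τ + γ 0 1))
  rw [den_conjM] at h1
  have e1 : (d : ℂ) * ((γ • τ : ℍ) : ℂ) = d * ((γ 0 0 : ℂ) * τ + γ 0 1) / den γ τ := by
    rw [coe_smul_eq, mul_div_assoc]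
  have e2 : (d : ℂ) * ((γ 0 0 : ℂ) * τ + γ 0 1) =
      ((γ 0 0 * d : ℤ) : ℂ) * τ + lat (mulH M τ) (0, d * γ 0 1) := by
    simp only [lat]
    push_cast
    ring
  rw [e1, h1, e2, wp_add_lat]
  ring

/-! ### The `q`-expansion -/

/-- `lamSum M ρ N = ∑_{e ∣ N, e ≡ ρ mod M} N / e`. -/
def lamSum (M : ℕ) (ρ : ZMod M) (N : ℕ) : ℕ :=
  ∑ e ∈ N.divisors.filter (fun e : ℕ => (e : ZMod M) = ρ), N / e

@[simp] theorem lamSum_zero (M : ℕ) (ρ : ZMod M) : lamSum M ρ 0 = 0 := by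
  simp [lamSum]

theorem geomD_eq_tsum_succ {s : ℂ} (hs : ‖s‖ < 1) :
    geomD s = ∑' k : ℕ, ((k + 1 : ℕ) : ℂ) * s ^ (k + 1) := by
  rw [geomD, (summable_geomD hs).tsum_eq_zero_add]
  simp

theorem norm_pow_succ_lt_one {r : ℂ} (hr : ‖r‖ < 1) (e : ℕ) : ‖r ^ (e + 1)‖ < 1 := by
  rw [norm_pow]
  exact pow_lt_one₀ (norm_nonneg r) hr (Nat.succ_ne_zero e)

/-- The class weight. -/
def clsW (M : ℕ) (ρ : ZMod M) (e : ℕ) : ℂ := if (e : ZMod M) = ρ then 1 else 0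

theorem norm_clsW_le (M : ℕ) (ρ : ZMod M) (e : ℕ) : ‖clsW M ρ e‖ ≤ 1 := by
  unfold clsW
  split_ifs <;> simp

theorem tsum_lamTerm_clsW (M : ℕ) (ρ : ZMod M) {r : ℂ} (hr : ‖r‖ < 1) (e : ℕ) :
    ∑' k : ℕ, lamTerm (fun e _ => clsW M ρ e) r e k = clsW M ρ (e + 1) * geomD (r ^ (e + 1)) := by
  rw [geomD_eq_tsum_succ (norm_pow_succ_lt_one hr e), ← tsum_mul_left]
  refine tsum_congr fun k => ?_
  simp only [lamTerm]
  rw [pow_mul]

/-- Lambert regrouping for one residue class. -/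
theorem hasSum_lamSum (M : ℕ) (ρ : ZMod M) {r : ℂ} (hr : ‖r‖ < 1) :
    HasSum (fun N : ℕ => (lamSum M ρ N : ℂ) * r ^ N)
      (∑' e : ℕ, clsW M ρ (e + 1) * geomD (r ^ (e + 1))) := by
  have h := hasSum_lambert (fun e _ => clsW M ρ e) 1 (fun e _ => norm_clsW_le M ρ e) hr
  have e1 : (fun N : ℕ => (∑ e ∈ N.divisors, clsW M ρ e * ((N / e : ℕ) : ℂ)) * r ^ N) =
      fun N : ℕ => (lamSum M ρ N : ℂ) * r ^ N := by
    funext N
    congr 1
    simp only [lamSum, clsW, ite_mul, one_mul, zero_mul]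
    rw [← Finset.sum_filter]
    push_cast
    rfl
  have e2 : (fun e : ℕ => ∑' k : ℕ, lamTerm (fun e _ => clsW M ρ e) r e k) =
      fun e : ℕ => clsW M ρ (e + 1) * geomD (r ^ (e + 1)) :=
    funext fun e => tsum_lamTerm_clsW M ρ hr e
  rw [e1, e2] at h
  exact h

theorem summable_clsW_geomD (M : ℕ) (ρ : ZMod M) {r : ℂ} (hr : ‖r‖ < 1) :
    Summable (fun e : ℕ => clsW M ρ (e + 1) * geomD (r ^ (e + 1))) := by
  have h := summable_lamTerm_rows (fun e _ => clsW M ρ e) 1 (fun e _ => norm_clsW_le M ρ e) hr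
  have e2 : (fun e : ℕ => ∑' k : ℕ, lamTerm (fun e _ => clsW M ρ e) r e k) =
      fun e : ℕ => clsW M ρ (e + 1) * geomD (r ^ (e + 1)) :=
    funext fun e => tsum_lamTerm_clsW M ρ hr e
  rwa [e2] at h

/-- The progression `M m + r`, `1 ≤ r ≤ M`, exhausts the positive integers in the class of `r`. -/
theorem exists_prog (M : ℕ) [NeZero M] (r : ℕ) (hr1 : 1 ≤ r) (hrM : r ≤ M) (e : ℕ)
    (h : ((e + 1 : ℕ) : ZMod M) = (r : ZMod M)) : ∃ m : ℕ, M * m + r = e + 1 := by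
  have h' : (((r : ℕ) : ℤ) : ZMod M) = (((e + 1 : ℕ) : ℤ) : ZMod M) := by
    push_cast
    push_cast at h
    exact h.symm
  obtain ⟨t, ht⟩ := (ZMod.intCast_eq_intCast_iff_dvd_sub _ _ M).mp h'
  have hM : (0 : ℤ) < M := by exact_mod_cast NeZero.pos M
  have ht0 : 0 ≤ t := by
    by_contra hneg
    push_neg at hneg
    have h1 : (M : ℤ) * t ≤ -M := by nlinarith
    have h2 : ((r : ℕ) : ℤ) ≤ M := by exact_mod_cast hrM
    push_cast at ht
    linarith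
  refine ⟨t.toNat, ?_⟩
  have h3 : ((t.toNat : ℕ) : ℤ) = t := Int.toNat_of_nonneg ht0
  have h4 : ((M * t.toNat + r : ℕ) : ℤ) = ((e + 1 : ℕ) : ℤ) := by
    push_cast
    rw [h3]
    push_cast at ht
    linarith
  exact_mod_cast h4

theorem progMap_injective (M : ℕ) [NeZero M] (r : ℕ) (hr1 : 1 ≤ r) :
    Function.Injective (fun m : ℕ => M * m + r - 1) := by
  intro m m' h
  simp only at h
  have h1 : M * m = M * m' := by omega
  exact Nat.eq_of_mul_eq_mul_left (NeZero.pos M) h1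

theorem clsW_prog (M : ℕ) [NeZero M] (r : ℕ) (m : ℕ) :
    clsW M (r : ZMod M) (M * m + r) = 1 := by
  unfold clsW
  rw [if_pos]
  simp

theorem support_clsW_subset (M : ℕ) [NeZero M] (r : ℕ) (hr1 : 1 ≤ r) (hrM : r ≤ M) (F : ℕ → ℂ) :
    Function.support (fun e : ℕ => clsW M (r : ZMod M) (e + 1) * F (e + 1)) ⊆
      Set.range (fun m : ℕ => M * m + r - 1) := by
  intro e he
  simp only [Function.mem_support, ne_eq, mul_eq_zero, not_or] at he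
  have hcls : ((e + 1 : ℕ) : ZMod M) = (r : ZMod M) := by
    by_contra hne
    exact he.1 (by unfold clsW; rw [if_neg hne])
  obtain ⟨m, hm⟩ := exists_prog M r hr1 hrM e hcls
  exact ⟨m, by simp only; omega⟩

/-- Summation along the progression `M m + r`. -/
theorem hasSum_prog (M : ℕ) [NeZero M] (r : ℕ) (hr1 : 1 ≤ r) (hrM : r ≤ M) {Q : ℂ}
    (hQ : ‖Q‖ < 1) :
    HasSum (fun m : ℕ => geomD (Q ^ (M * m + r)))
      (∑' e : ℕ, clsW M (r : ZMod M) (e + 1) * geomD (Q ^ (e + 1))) := by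
  have hg := progMap_injective M r hr1
  have hs := support_clsW_subset M r hr1 hrM (fun e => geomD (Q ^ e))
  have hsum := (summable_clsW_geomD M (r : ZMod M) hQ).comp_injective hg
  have h : HasSum ((fun e : ℕ => clsW M (r : ZMod M) (e + 1) * geomD (Q ^ (e + 1))) ∘
      fun m : ℕ => M * m + r - 1)
      (∑' e : ℕ, clsW M (r : ZMod M) (e + 1) * geomD (Q ^ (e + 1))) := by
    rw [← hg.tsum_eq hs]
    exact hsum.hasSum
  have e : ((fun e : ℕ => clsW M (r : ZMod M) (e + 1) * geomD (Q ^ (e + 1))) ∘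
      fun m : ℕ => M * m + r - 1) = fun m : ℕ => geomD (Q ^ (M * m + r)) := by
    funext m
    have h1 : M * m + r - 1 + 1 = M * m + r := by omega
    simp only [Function.comp_apply]
    rw [h1, clsW_prog, one_mul]
  rwa [e] at h

/-- The integer `q`-coefficients (`N ≥ 1`) of `xdiv M d`:
`∑_{e ∣ N} (N/e) ([e ≡ d] + [e ≡ -d] - 2 [e ≡ 0])`, congruences mod `M`. -/
def xcoeffZ (M : ℕ) (d : ℤ) (N : ℕ) : ℤ :=
  (lamSum M (d : ZMod M) N : ℤ) + lamSum M (-(d : ZMod M)) N - 2 * lamSum M 0 N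

/-- The rational `q`-coefficients of `xdiv M d`: constant term `1/12`, then `xcoeffZ`. -/
def xcoeff (M : ℕ) (d : ℤ) (N : ℕ) : ℚ := (if N = 0 then 1 / 12 else 0) + (xcoeffZ M d N : ℚ)

@[simp] theorem xcoeffZ_zero (M : ℕ) (d : ℤ) : xcoeffZ M d 0 = 0 := by simp [xcoeffZ]

theorem xcoeff_zero (M : ℕ) (d : ℤ) : xcoeff M d 0 = 1 / 12 := by simp [xcoeff]

theorem xcoeff_succ (M : ℕ) (d : ℤ) (N : ℕ) : xcoeff M d (N + 1) = (xcoeffZ M d (N + 1) : ℚ) := by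
  simp [xcoeff]

/-- **(W3)** The `q`-expansion of `xdiv M d` for `0 < d < M`. -/
theorem hasSum_xdiv (M : ℕ) [NeZero M] (d : ℕ) (hd0 : 0 < d) (hdM : d < M) (τ : ℍ) :
    HasSum (fun N : ℕ => (xcoeff M (d : ℤ) N : ℂ) * cexp (2 * π * Complex.I * τ) ^ N)
      (xdiv M (d : ℤ) τ) := by
  set Q := cexp (2 * π * Complex.I * τ) with hQdef
  have hQ : ‖Q‖ < 1 := norm_cexp_lt_one (by simpa using τ.im_pos)
  have hQ0 : Q ≠ 0 := Complex.exp_ne_zero _
  have hx : xdiv M (d : ℤ) τ =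
      ℘[pp (mulH M τ)] ((d : ℂ) * τ) / (2 * π * Complex.I) ^ 2 := by
    unfold xdiv
    push_cast
    rfl
  have him : ((d : ℂ) * τ).im = (d : ℝ) * τ.im := by simp [Complex.mul_im]
  have hz0 : 0 < ((d : ℂ) * τ).im := by
    rw [him]
    exact mul_pos (by exact_mod_cast hd0) τ.im_pos
  have hz1 : ((d : ℂ) * τ).im < (mulH M τ).im := by
    have h2 : (mulH M τ).im = (M : ℝ) * τ.im := by
      rw [← UpperHalfPlane.coe_im, coe_mulH]
      simp [Complex.mul_im]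
    rw [him, h2]
    exact mul_lt_mul_of_pos_right (by exact_mod_cast hdM) τ.im_pos
  have hA := hasSum_wp_upper (mulH M τ) ((d : ℂ) * τ) hz0 hz1
  have eM : cexp (2 * π * Complex.I * ((mulH M τ : ℍ) : ℂ)) = Q ^ M := by
    rw [hQdef, ← Complex.exp_nat_mul, coe_mulH]
    congr 1
    ring
  have ed : cexp (2 * π * Complex.I * ((d : ℂ) * τ)) = Q ^ d := by
    rw [hQdef, ← Complex.exp_nat_mul]
    congr 1
    ring
  rw [eM, ed, ← hx] at hA
  have hP1 := hasSum_prog M (M - d) (by omega) (by omega) hQ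
  have hP2 := hasSum_prog M d hd0 hdM.le hQ
  have hP3 := hasSum_prog M M (NeZero.pos M) le_rfl hQ
  have hP2' := (hasSum_nat_add_iff' 1).mpr hP2
  simp only [Finset.range_one, Finset.sum_singleton, mul_zero, zero_add] at hP2'
  have hB := (hP1.add hP2').sub (hP3.mul_left 2)
  have he : (fun m : ℕ => geomD ((Q ^ M) ^ (m + 1) * (Q ^ d)⁻¹) + geomD ((Q ^ M) ^ (m + 1) * Q ^ d)
        - 2 * geomD ((Q ^ M) ^ (m + 1))) =
      fun m : ℕ => geomD (Q ^ (M * m + (M - d))) + geomD (Q ^ (M * (m + 1) + d))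
        - 2 * geomD (Q ^ (M * m + M)) := by
    funext m
    have hle : d ≤ M * (m + 1) := by
      have : M * (m + 1) = M * m + M := Nat.mul_succ M m
      omega
    have h1 : (Q ^ M) ^ (m + 1) * (Q ^ d)⁻¹ = Q ^ (M * m + (M - d)) := by
      rw [← pow_mul, ← pow_sub₀ Q hQ0 hle]
      congr 1
      have : M * (m + 1) = M * m + M := Nat.mul_succ M m
      omega
    have h2 : (Q ^ M) ^ (m + 1) * Q ^ d = Q ^ (M * (m + 1) + d) := by
      rw [← pow_mul, ← pow_add]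
    have h3 : (Q ^ M) ^ (m + 1) = Q ^ (M * m + M) := by
      rw [← pow_mul, Nat.mul_succ]
    rw [h1, h2, h3]
  rw [he] at hA
  have huniq := hA.unique hB
  have hL1 := hasSum_lamSum M ((M - d : ℕ) : ZMod M) hQ
  have hL2 := hasSum_lamSum M ((d : ℕ) : ZMod M) hQ
  have hL3 := hasSum_lamSum M ((M : ℕ) : ZMod M) hQ
  have hC := ((hL2.add hL1).sub (hL3.mul_left 2)).add (hasSum_ite_eq 0 (1 / 12 : ℂ))
  have hc1 : ((M - d : ℕ) : ZMod M) = -(((d : ℤ)) : ZMod M) := by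
    rw [Nat.cast_sub hdM.le]
    simp
  have hc2 : ((d : ℕ) : ZMod M) = (((d : ℤ)) : ZMod M) := by simp
  have hc3 : ((M : ℕ) : ZMod M) = 0 := by simp
  have hfun : (fun N : ℕ => (xcoeff M (d : ℤ) N : ℂ) * Q ^ N) =
      fun N : ℕ => (lamSum M ((d : ℕ) : ZMod M) N : ℂ) * Q ^ N
        + (lamSum M ((M - d : ℕ) : ZMod M) N : ℂ) * Q ^ N
        - 2 * ((lamSum M ((M : ℕ) : ZMod M) N : ℂ) * Q ^ N)
        + (if N = 0 then (1 / 12 : ℂ) else 0) := by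
    funext N
    rw [hc1, hc2, hc3]
    by_cases hN : N = 0
    · subst hN
      simp [xcoeff]
    · simp only [xcoeff, xcoeffZ, if_neg hN]
      push_cast
      ring
  rw [hfun]
  have hval : xdiv M (d : ℤ) τ =
      (∑' e : ℕ, clsW M ((d : ℕ) : ZMod M) (e + 1) * geomD (Q ^ (e + 1)))
        + (∑' e : ℕ, clsW M ((M - d : ℕ) : ZMod M) (e + 1) * geomD (Q ^ (e + 1)))
        - 2 * (∑' e : ℕ, clsW M ((M : ℕ) : ZMod M) (e + 1) * geomD (Q ^ (e + 1)))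
        + 1 / 12 := by
    linear_combination huniq
  rw [hval]
  exact hC

/-! ### Membership and slash forms of the covariance -/

theorem xdiv_smul_Gamma0 (M : ℕ) [NeZero M] (γ : SL(2, ℤ)) (hγ : γ ∈ CongruenceSubgroup.Gamma0 M)
    (d : ℤ) (τ : ℍ) : xdiv M d (γ • τ) = den γ τ ^ 2 * xdiv M (γ 0 0 * d) τ :=
  xdiv_smul M γ ((ZMod.intCast_zmod_eq_zero_iff_dvd _ M).mp (CongruenceSubgroup.Gamma0_mem.mp hγ))
    d τ

theorem xdiv_smul_Gamma1 (M : ℕ) [NeZero M] (γ : SL(2, ℤ)) (hγ : γ ∈ CongruenceSubgroup.Gamma1 M)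
    (d : ℤ) (τ : ℍ) : xdiv M d (γ • τ) = den γ τ ^ 2 * xdiv M d τ := by
  obtain ⟨h00, -, h10⟩ := (CongruenceSubgroup.Gamma1_mem M γ).mp hγ
  rw [xdiv_smul M γ ((ZMod.intCast_zmod_eq_zero_iff_dvd _ M).mp h10) d τ]
  congr 1
  apply xdiv_eq_of_dvd
  have h1 : (M : ℤ) ∣ γ 0 0 - 1 := by
    apply (ZMod.intCast_zmod_eq_zero_iff_dvd _ M).mp
    push_cast
    rw [h00]
    ring
  obtain ⟨t, ht⟩ := h1
  exact ⟨t * d, by rw [← mul_assoc, ← ht]; ring⟩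

/-- The weight `2` slash action of `Γ₀(M)` on the family: `xdiv M d ∣[2] γ = xdiv M (a d)`. -/
theorem xdiv_slash (M : ℕ) [NeZero M] (γ : SL(2, ℤ)) (h : (M : ℤ) ∣ γ 1 0) (d : ℤ) :
    (xdiv M d) ∣[(2 : ℤ)] γ = xdiv M (γ 0 0 * d) := by
  funext τ
  rw [ModularForm.SL_slash_apply, xdiv_smul M γ h d τ, ← den_eq_denom]
  have hd := den_ne_zero γ τ
  rw [zpow_neg, show (2 : ℤ) = ((2 : ℕ) : ℤ) from rfl, zpow_natCast]
  field_simp

theorem xdiv_slash_Gamma1 (M : ℕ) [NeZero M] (γ : SL(2, ℤ))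
    (hγ : γ ∈ CongruenceSubgroup.Gamma1 M) (d : ℤ) : (xdiv M d) ∣[(2 : ℤ)] γ = xdiv M d := by
  funext τ
  rw [ModularForm.SL_slash_apply, xdiv_smul_Gamma1 M γ hγ d τ, ← den_eq_denom]
  have hd := den_ne_zero γ τ
  rw [zpow_neg, show (2 : ℤ) = ((2 : ℕ) : ℤ) from rfl, zpow_natCast]
  field_simp

/-! ### The formal series -/

/-- The formal `q`-expansion of `xdiv M d` (`0 < d < M`): `1/12 + ∑_{N ≥ 1} xcoeffZ M d N q^N`. -/
def xser (M : ℕ) (d : ℤ) : PowerSeries ℚ := PowerSeries.mk (xcoeff M d)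

@[simp] theorem coeff_xser (M : ℕ) (d : ℤ) (N : ℕ) :
    PowerSeries.coeff N (xser M d) = xcoeff M d N := by simp [xser]

/-- `hasSum_xdiv` in terms of the formal series. -/
theorem hasSum_xser (M : ℕ) [NeZero M] (d : ℕ) (hd0 : 0 < d) (hdM : d < M) (τ : ℍ) :
    HasSum (fun N : ℕ => ((PowerSeries.coeff N (xser M (d : ℤ)) : ℚ) : ℂ)
      * cexp (2 * π * Complex.I * τ) ^ N) (xdiv M (d : ℤ) τ) := by
  simp only [coeff_xser]
  exact hasSum_xdiv M d hd0 hdM τ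

/-- Differences of two members of the family have integral `q`-expansions. -/
theorem xcoeff_sub (M : ℕ) (d d' : ℤ) (N : ℕ) :
    xcoeff M d N - xcoeff M d' N = ((xcoeffZ M d N - xcoeffZ M d' N : ℤ) : ℚ) := by
  simp only [xcoeff]
  push_cast
  ring

end

end Fermat.Agent.S48.G1.WP
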