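import Fermat.Agent.S48.G1.WP

/-!
# The `q`-expansion of `℘` in the strip `|Im z| < Im τ`

Summing the `ℤ²`-form of `℘[pp τ]` by rows `m` (the coefficient of `τ`) and using Mathlib's
`EisensteinSeries.qExpansion_identity` for every row `m ≠ 0` gives
`℘(z) = ∑_n 1/(z+n)² - π²/3 + (2πi)² ∑_{m ≥ 1} (E(qᵐ w) + E(qᵐ w⁻¹) - 2 E(qᵐ))`,
`E(r) = ∑ k r^k`, `w = e^{2πiz}`, `q = e^{2πiτ}`.
-/

namespace Fermat.Agent.S48.G1.WP

open Complex UpperHalfPlane PeriodPair
open scoped Real MatrixGroups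

noncomputable section

/-- `invSq x = ∑_{n ∈ ℤ} 1 / (x + n)^2` (the row `m = 0`; `= π² / sin² (π x)`). -/
def invSq (x : ℂ) : ℂ := ∑' n : ℤ, 1 / (x + n) ^ 2

theorem summable_invSq (x : ℂ) : Summable fun n : ℤ => 1 / (x + n) ^ 2 := by
  have h := EisensteinSeries.linear_right_summable x 1 (k := 2) le_rfl
  refine h.congr fun n => ?_
  simp

theorem hasSum_invSq (x : ℂ) : HasSum (fun n : ℤ => 1 / (x + n) ^ 2) (invSq x) :=
  (summable_invSq x).hasSum

theorem invSq_neg (x : ℂ) : invSq (-x) = invSq x := by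
  unfold invSq
  rw [← (Equiv.neg ℤ).tsum_eq]
  refine tsum_congr fun n => ?_
  simp only [Equiv.neg_apply, Int.cast_neg]
  rw [← neg_add, neg_sq]

theorem invSq_eq_tsum_sub (x : ℂ) : invSq x = ∑' n : ℤ, 1 / (x - n) ^ 2 := by
  unfold invSq
  rw [← (Equiv.neg ℤ).tsum_eq]
  refine tsum_congr fun n => ?_
  simp only [Equiv.neg_apply, Int.cast_neg]
  rw [sub_eq_add_neg]

theorem invSq_zero : invSq 0 = (π : ℂ) ^ 2 / 3 := by
  have h := two_mul_riemannZeta_eq_tsum_int_inv_pow_of_even (k := 2) le_rfl (by decide)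
  have h2 : invSq 0 = ∑' n : ℤ, ((n : ℂ) ^ 2)⁻¹ := by
    unfold invSq
    refine tsum_congr fun n => ?_
    simp
  rw [h2, ← h]
  have := riemannZeta_two
  simp only [Nat.cast_ofNat]
  rw [this]
  ring

/-- `geomD r = ∑_{k ≥ 0} k r^k` (`= r / (1 - r)^2` for `‖r‖ < 1`). -/
def geomD (r : ℂ) : ℂ := ∑' k : ℕ, (k : ℂ) * r ^ k

theorem summable_geomD {r : ℂ} (hr : ‖r‖ < 1) : Summable fun k : ℕ => (k : ℂ) * r ^ k := by
  have := summable_pow_mul_geometric_of_norm_lt_one 1 hr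
  simpa using this

theorem hasSum_geomD {r : ℂ} (hr : ‖r‖ < 1) : HasSum (fun k : ℕ => (k : ℂ) * r ^ k) (geomD r) :=
  (summable_geomD hr).hasSum

/-- The row identity: for `Im x > 0`, `∑_n 1/(x+n)² = (2πi)² ∑_k k e^{2πikx}`. -/
theorem invSq_eq_geomD {x : ℂ} (hx : 0 < x.im) :
    invSq x = (2 * π * Complex.I) ^ 2 * geomD (cexp (2 * π * Complex.I * x)) := by
  have h := EisensteinSeries.qExpansion_identity (k := 1) le_rfl ⟨x, hx⟩
  simp only [Nat.factorial_one, Nat.cast_one, div_one, pow_one, UpperHalfPlane.coe_mk] at h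
  rw [invSq, geomD]
  rw [show (1 + 1 : ℕ) = 2 from rfl] at h
  rw [h]
  ring

/-- The sum of the row `m` of `℘`. -/
theorem tsum_wpTerm_row (τ : ℍ) (z : ℂ) (m : ℤ) :
    ∑' n : ℤ, wpTerm τ z (m, n) = invSq (z - m * τ) - invSq (m * τ) := by
  have h1 : HasSum (fun n : ℤ => 1 / (z - lat τ (m, n)) ^ 2) (invSq (z - m * τ)) := by
    have h := hasSum_invSq (z - m * τ)
    have h' := ((Equiv.neg ℤ).hasSum_iff).mpr h
    have he : (fun n : ℤ => 1 / (z - m * τ + (n : ℂ)) ^ 2) ∘ ⇑(Equiv.neg ℤ) =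
        fun n : ℤ => 1 / (z - lat τ (m, n)) ^ 2 := by
      funext n
      simp only [Function.comp_apply, Equiv.neg_apply, Int.cast_neg, lat]
      congr 2
      ring
    rwa [he] at h'
  have h2 : HasSum (fun n : ℤ => 1 / (lat τ (m, n)) ^ 2) (invSq (m * τ)) := by
    exact hasSum_invSq (m * τ)
  exact (h1.sub h2).tsum_eq

/-- `℘` as the sum of its rows. -/
theorem hasSum_rows (τ : ℍ) (z : ℂ) :
    HasSum (fun m : ℤ => invSq (z - m * τ) - invSq (m * τ)) (℘[pp τ] z) := by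
  have h := hasSum_wp τ z
  have h2 := h.prod_fiberwise (fun m => (h.summable.prod_factor m).hasSum)
  have he : (fun m : ℤ => ∑' n : ℤ, wpTerm τ z (m, n)) =
      fun m : ℤ => invSq (z - m * τ) - invSq (m * τ) := funext fun m => tsum_wpTerm_row τ z m
  rwa [he] at h2

/-- `℘` as the sum over `m ≥ 1` of the rows `m` and `-m`; the row `m = 0` is on the right. -/
theorem hasSum_rows_nat (τ : ℍ) (z : ℂ) :
    HasSum (fun m : ℕ => invSq ((m + 1 : ℕ) * τ - z) + invSq ((m + 1 : ℕ) * τ + z)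
        - 2 * invSq ((m + 1 : ℕ) * τ))
      (℘[pp τ] z - invSq z + (π : ℂ) ^ 2 / 3) := by
  have h := (hasSum_rows τ z).nat_add_neg
  have h2 := (hasSum_nat_add_iff' 1).mpr h
  simp only [Finset.range_one, Finset.sum_singleton, Nat.cast_zero, Int.cast_zero, zero_mul,
    sub_zero, neg_zero, invSq_zero] at h2
  have he : (fun n : ℕ => invSq (z - ((n + 1 : ℕ) : ℤ) * τ) - invSq (((n + 1 : ℕ) : ℤ) * τ)
      + (invSq (z - ((-((n + 1 : ℕ) : ℤ) : ℤ) : ℂ) * τ) - invSq (((-((n + 1 : ℕ) : ℤ) : ℤ) : ℂ) * τ)))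
      = fun m : ℕ => invSq ((m + 1 : ℕ) * τ - z) + invSq ((m + 1 : ℕ) * τ + z)
        - 2 * invSq ((m + 1 : ℕ) * τ) := by
    funext n
    have e1 : invSq (z - ((n + 1 : ℕ) : ℤ) * τ) = invSq ((n + 1 : ℕ) * τ - z) := by
      rw [← invSq_neg]
      congr 1
      push_cast
      ring
    have e2 : invSq (z - ((-((n + 1 : ℕ) : ℤ) : ℤ) : ℂ) * τ) = invSq ((n + 1 : ℕ) * τ + z) := by
      congr 1
      push_cast
      ring
    have e3 : invSq (((-((n + 1 : ℕ) : ℤ) : ℤ) : ℂ) * τ) = invSq ((n + 1 : ℕ) * τ) := by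
      rw [← invSq_neg]
      congr 1
      push_cast
      ring
    have e4 : invSq (((n + 1 : ℕ) : ℤ) * τ) = invSq ((n + 1 : ℕ) * τ) := by
      congr 1
    rw [e1, e2, e3, e4]
    ring
  rw [he] at h2
  have key : ℘[pp τ] z - invSq z + (π : ℂ) ^ 2 / 3 =
      ℘[pp τ] z + (invSq z - (π : ℂ) ^ 2 / 3)
        - (invSq z - (π : ℂ) ^ 2 / 3 + (invSq z - (π : ℂ) ^ 2 / 3)) := by ring
  rw [key]
  exact h2

theorem norm_cexp_two_pi_I_mul (x : ℂ) : ‖cexp (2 * π * Complex.I * x)‖ = Real.exp (-2 * π * x.im) := by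
  rw [Complex.norm_exp]
  congr 1
  simp [Complex.mul_re, Complex.mul_im]

theorem norm_cexp_lt_one {x : ℂ} (hx : 0 < x.im) : ‖cexp (2 * π * Complex.I * x)‖ < 1 := by
  rw [norm_cexp_two_pi_I_mul, Real.exp_lt_one_iff]
  have := Real.pi_pos
  nlinarith

/-- **(W2)** The `q`-expansion of `℘` in the strip `|Im z| < Im τ` (rows `m ≠ 0` summed; the row
`m = 0` is `invSq z`). -/
theorem hasSum_wp_strip (τ : ℍ) (z : ℂ) (hz : |z.im| < τ.im) :
    HasSum (fun m : ℕ => (2 * π * Complex.I) ^ 2 *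
        (geomD (cexp (2 * π * Complex.I * τ) ^ (m + 1) * (cexp (2 * π * Complex.I * z))⁻¹)
          + geomD (cexp (2 * π * Complex.I * τ) ^ (m + 1) * cexp (2 * π * Complex.I * z))
          - 2 * geomD (cexp (2 * π * Complex.I * τ) ^ (m + 1))))
      (℘[pp τ] z - invSq z + (π : ℂ) ^ 2 / 3) := by
  have h := hasSum_rows_nat τ z
  have hτ : 0 < (τ : ℂ).im := τ.im_pos
  obtain ⟨hz1, hz2⟩ := abs_lt.mp hz
  have he : (fun m : ℕ => invSq ((m + 1 : ℕ) * τ - z) + invSq ((m + 1 : ℕ) * τ + z)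
        - 2 * invSq ((m + 1 : ℕ) * τ)) =
      fun m : ℕ => (2 * π * Complex.I) ^ 2 *
        (geomD (cexp (2 * π * Complex.I * τ) ^ (m + 1) * (cexp (2 * π * Complex.I * z))⁻¹)
          + geomD (cexp (2 * π * Complex.I * τ) ^ (m + 1) * cexp (2 * π * Complex.I * z))
          - 2 * geomD (cexp (2 * π * Complex.I * τ) ^ (m + 1))) := by
    funext m
    have hm : (1 : ℝ) ≤ ((m + 1 : ℕ) : ℝ) := by exact_mod_cast Nat.succ_le_succ (Nat.zero_le m)
    have him : (((m + 1 : ℕ) : ℂ) * τ).im = ((m + 1 : ℕ) : ℝ) * τ.im := by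
      simp [Complex.mul_im]
    have h1 : 0 < (((m + 1 : ℕ) : ℂ) * τ - z).im := by
      rw [Complex.sub_im, him]
      have : τ.im ≤ ((m + 1 : ℕ) : ℝ) * τ.im := le_mul_of_one_le_left τ.im_pos.le hm
      linarith [UpperHalfPlane.coe_im τ]
    have h2 : 0 < (((m + 1 : ℕ) : ℂ) * τ + z).im := by
      rw [Complex.add_im, him]
      have : τ.im ≤ ((m + 1 : ℕ) : ℝ) * τ.im := le_mul_of_one_le_left τ.im_pos.le hm
      linarith [UpperHalfPlane.coe_im τ]
    have h3 : 0 < (((m + 1 : ℕ) : ℂ) * τ).im := by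
      rw [him]
      have : τ.im ≤ ((m + 1 : ℕ) : ℝ) * τ.im := le_mul_of_one_le_left τ.im_pos.le hm
      linarith [τ.im_pos]
    rw [invSq_eq_geomD h1, invSq_eq_geomD h2, invSq_eq_geomD h3]
    have e1 : cexp (2 * π * Complex.I * (((m + 1 : ℕ) : ℂ) * τ - z)) =
        cexp (2 * π * Complex.I * τ) ^ (m + 1) * (cexp (2 * π * Complex.I * z))⁻¹ := by
      rw [← Complex.exp_nat_mul, ← Complex.exp_neg, ← Complex.exp_add]
      congr 1
      ring
    have e2 : cexp (2 * π * Complex.I * (((m + 1 : ℕ) : ℂ) * τ + z)) =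
        cexp (2 * π * Complex.I * τ) ^ (m + 1) * cexp (2 * π * Complex.I * z) := by
      rw [← Complex.exp_nat_mul, ← Complex.exp_add]
      congr 1
      ring
    have e3 : cexp (2 * π * Complex.I * (((m + 1 : ℕ) : ℂ) * τ)) =
        cexp (2 * π * Complex.I * τ) ^ (m + 1) := by
      rw [← Complex.exp_nat_mul]
      congr 1
      ring
    rw [e1, e2, e3]
    ring
  rwa [he] at h

/-- **(W2')** The row `m = 0` in the upper half plane. -/
theorem invSq_eq_geomD' {z : ℂ} (hz : 0 < z.im) :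
    ∑' n : ℤ, 1 / (z - n) ^ 2 = (2 * π * Complex.I) ^ 2 * geomD (cexp (2 * π * Complex.I * z)) := by
  rw [← invSq_eq_tsum_sub, invSq_eq_geomD hz]

theorem geomD_eq {r : ℂ} (hr : ‖r‖ < 1) : geomD r = r / (1 - r) ^ 2 :=
  tsum_coe_mul_geometric_of_norm_lt_one hr

theorem two_pi_I_sq : (2 * π * Complex.I) ^ 2 = -(4 * (π : ℂ) ^ 2) := by
  rw [mul_pow, mul_pow, Complex.I_sq]
  ring

theorem two_pi_I_sq_ne_zero : (2 * π * Complex.I) ^ 2 ≠ 0 := by
  rw [two_pi_I_sq]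
  have : (π : ℂ) ≠ 0 := by exact_mod_cast Real.pi_ne_zero
  simp [this]

/-- **(W2), upper strip** `0 < Im z < Im τ`: the normalised `℘ / (2πi)²` as a sum of geometric
derivative series; no lattice sum is left. -/
theorem hasSum_wp_upper (τ : ℍ) (z : ℂ) (hz0 : 0 < z.im) (hz : z.im < τ.im) :
    HasSum (fun m : ℕ =>
        geomD (cexp (2 * π * Complex.I * τ) ^ (m + 1) * (cexp (2 * π * Complex.I * z))⁻¹)
          + geomD (cexp (2 * π * Complex.I * τ) ^ (m + 1) * cexp (2 * π * Complex.I * z))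
          - 2 * geomD (cexp (2 * π * Complex.I * τ) ^ (m + 1)))
      (℘[pp τ] z / (2 * π * Complex.I) ^ 2 - 1 / 12 - geomD (cexp (2 * π * Complex.I * z))) := by
  have h := hasSum_wp_strip τ z (abs_lt.mpr ⟨by linarith, hz⟩)
  have h2 := h.mul_left ((2 * π * Complex.I) ^ 2)⁻¹
  have hc := two_pi_I_sq_ne_zero
  have hπ : (π : ℂ) ≠ 0 := by exact_mod_cast Real.pi_ne_zero
  simp only [inv_mul_cancel_left₀ hc] at h2
  have key : ((2 * π * Complex.I) ^ 2)⁻¹ * (℘[pp τ] z - invSq z + (π : ℂ) ^ 2 / 3) =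
      ℘[pp τ] z / (2 * π * Complex.I) ^ 2 - 1 / 12 - geomD (cexp (2 * π * Complex.I * z)) := by
    rw [invSq_eq_geomD hz0]
    have h4 : ((2 * π * Complex.I) ^ 2)⁻¹ * ((π : ℂ) ^ 2 / 3) = -(1 / 12) := by
      rw [two_pi_I_sq]
      field_simp
      ring
    rw [mul_add, h4, mul_sub, inv_mul_cancel_left₀ hc]
    ring
  rwa [key] at h2

end

end Fermat.Agent.S48.G1.WP
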